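import Fermat.Statements.S24
import Fermat.Agent.S24.DiffMain
import Fermat.Agent.S24.FF.Residue
import Fermat.Agent.S24.FF.Principal
import Fermat.Agent.S24.RHGeneric

set_option autoImplicit false

/-!
G2 (Riemann-Hurwitz form of the degree of the canonical divisor).
-/

open AlgebraicCurve IntermediateField KaehlerDifferential

namespace Fermat.Agent.S24.Generic

variable {K F : Type*} [Field K] [Field F] [Algebra K F]

theorem not_mem_range_of_transcendental {x : F} (hx : Transcendental K x) :
    x ∉ (algebraMap K F).range := by
  rintro ⟨c, rfl⟩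
  exact hx (isAlgebraic_algebraMap c)

/-- The Riemann–Hurwitz input data hold for a transcendental `x` in a function field of one
variable over an algebraically closed field of characteristic zero. -/
theorem rhData [IsAlgClosed K] [CharZero K]
    [Algebra.EssFiniteType K F] (htr : Algebra.trdeg K F = 1)
    (x : F) (hx : Transcendental K x) :
    RH.Data K F x (Module.finrank K⟮x⟯ F) := by
  have hxr := not_mem_range_of_transcendental hx
  have hres : ∀ v : Place K F, DiffMain.ResidueIsBase v := fun v =>
    FF.exists_residue_sub_mem htr v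
  have halg : DiffMain.AlgOverNonconst K F := fun u hu =>
    FF.isAlgebraic_adjoin_simple_of_not_mem_range htr u hu
  refine
    { deg_one := fun v => FF.deg_eq_one htr v
      residue := fun v => ?_
      ordDiff := fun v y hy => DiffMain.ordDifferential_D_of_ord_ne_zero v (hres v) halg hy
      ordDiff_smul := fun v f hf =>
        DiffMain.ordDifferential_smul v (hres v) halg hf (DiffMain.D_ne_zero v (hres v) halg hxr)
      exists_smul := fun ω => DiffMain.exists_eq_smul_D halg hxr ω
      principal := fun f hf E hE => FF.degree_eq_zero_of_ord htr hf E hE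
      zeros_finite := fun c => FF.zeros_finite htr hx c
      zeros_sum := fun c => FF.sum_ord_zeros htr hx c
      poles_finite := FF.poles_finite htr hx
      poles_sum := FF.sum_ord_poles htr hx }
  by_cases h : v.ord x < 0
  · exact Or.inl h
  · exact Or.inr (DiffMain.exists_center v (hres v) hxr (not_lt.mp h))

/-- In a fibre with sum of ramification indices `n`, there are at most `n` places. -/
theorem ncard_zeros_le {x : F} {n : ℕ} (h : RH.Data K F x n) (c : K) :
    (RH.zeros (K := K) x c).ncard ≤ n := by
  classical
  have hfin := h.zeros_finite c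
  have hsum := h.zeros_sum c
  rw [finsum_mem_eq_finite_toFinset_sum _ hfin] at hsum
  have hcard : (RH.zeros (K := K) x c).ncard = hfin.toFinset.card :=
    Set.ncard_eq_toFinset_card _ hfin
  have hle : (hfin.toFinset.card : ℤ) ≤ ∑ v ∈ hfin.toFinset, v.ord (x - algebraMap K F c) := by
    have : ∑ _v ∈ hfin.toFinset, (1 : ℤ) ≤ ∑ v ∈ hfin.toFinset, v.ord (x - algebraMap K F c) := by
      apply Finset.sum_le_sum
      intro v hv
      have hv' : 0 < v.ord (x - algebraMap K F c) := by
        have := (Set.Finite.mem_toFinset hfin).mp hv
        exact this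
      omega
    simpa using this
  rw [hsum] at hle
  rw [hcard]
  exact_mod_cast hle

/-- G2 (Riemann-Hurwitz form). -/
theorem degree_canonicalDivisorOf_eq [IsAlgClosed K] [CharZero K]
    [Algebra.EssFiniteType K F] (htr : Algebra.trdeg K F = 1)
    (x : F) (hx : Transcendental K x) (hfin : FiniteDimensional K⟮x⟯ F)
    [HasCanonicalDivisor (K := K) (F := F)]
    (S : Finset K)
    (hS : ∀ a : K, a ∉ S →
      Module.finrank K⟮x⟯ F ≤ Nat.card {v : Place K F // 0 < v.ord (x - algebraMap K F a)})
    {ω : Ω[F⁄K]} (hω : ω ≠ 0) :
    Divisor.degree (canonicalDivisorOf hω) =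
      ∑ a ∈ S, ((Module.finrank K⟮x⟯ F : ℤ)
          - Nat.card {v : Place K F // 0 < v.ord (x - algebraMap K F a)})
        - Module.finrank K⟮x⟯ F - Nat.card {v : Place K F // v.ord x < 0} := by
  have h := rhData htr x hx
  have hz : ∀ a : K, Nat.card {v : Place K F // 0 < v.ord (x - algebraMap K F a)}
      = (RH.zeros (K := K) x a).ncard := fun a =>
    Nat.card_coe_set_eq (RH.zeros (K := K) x a)
  have hp : Nat.card {v : Place K F // v.ord x < 0} = (RH.poles K x).ncard :=
    Nat.card_coe_set_eq (RH.poles K x)
  have hS' : ∀ c ∉ S, (RH.zeros (K := K) x c).ncard = Module.finrank K⟮x⟯ F := by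
    intro c hc
    have h1 := hS c hc
    rw [hz c] at h1
    exact le_antisymm (ncard_zeros_le h c) h1
  rw [RH.degree_canonicalDivisorOf h S hS' hω, hp]
  simp only [hz]

end Fermat.Agent.S24.Generic
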