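import Mathlib
import Fermat.Agent.S24.FibreCount

set_option autoImplicit false

/-!
Adapter for G3: from ring homomorphisms `ρ i : F₀ →+* R` of a generating subalgebra into a
domain with an order function, produce field embeddings `ι i : F →+* FractionRing R` and an
order function on `FractionRing R`, in the shape consumed by the field form of the fibre count.
-/

namespace Fermat.Agent.S24.Generic.G3Adapter

open AlgebraicCurve IntermediateField Fermat.Agent.S24.FibreCount

section OrdFrac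

variable {R : Type*} [CommRing R] [IsDomain R] (ordR : R → ℤ)

/-- Extension of an order function on a domain to its fraction field:
`ordFrac (a / b) = ordR a - ordR b`. -/
noncomputable def ordFrac (z : FractionRing R) : ℤ :=
  ordR (IsFractionRing.div_surjective R z).choose -
    ordR (IsFractionRing.div_surjective R z).choose_spec.choose

variable {ordR}

theorem ordR_one (hmul : ∀ a b : R, a ≠ 0 → b ≠ 0 → ordR (a * b) = ordR a + ordR b) :
    ordR 1 = 0 := by
  have h := hmul 1 1 one_ne_zero one_ne_zero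
  rw [mul_one] at h
  omega

theorem ordFrac_div (hmul : ∀ a b : R, a ≠ 0 → b ≠ 0 → ordR (a * b) = ordR a + ordR b)
    {a b : R} (ha : a ≠ 0) (hb : b ≠ 0) :
    ordFrac ordR (algebraMap R (FractionRing R) a / algebraMap R (FractionRing R) b) =
      ordR a - ordR b := by
  set z := algebraMap R (FractionRing R) a / algebraMap R (FractionRing R) b with hz
  have hspec := (IsFractionRing.div_surjective R z).choose_spec.choose_spec
  set p := (IsFractionRing.div_surjective R z).choose with hp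
  set q := (IsFractionRing.div_surjective R z).choose_spec.choose with hq
  have hinj : Function.Injective (algebraMap R (FractionRing R)) :=
    IsFractionRing.injective R (FractionRing R)
  have hq0 : q ≠ 0 := nonZeroDivisors.ne_zero hspec.1
  have ha' : algebraMap R (FractionRing R) a ≠ 0 := (map_ne_zero_iff _ hinj).mpr ha
  have hb' : algebraMap R (FractionRing R) b ≠ 0 := (map_ne_zero_iff _ hinj).mpr hb
  have hq' : algebraMap R (FractionRing R) q ≠ 0 := (map_ne_zero_iff _ hinj).mpr hq0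
  have hcross : p * b = a * q := by
    apply hinj
    have h := hspec.2
    rw [hz, div_eq_div_iff hq' hb'] at h
    rw [map_mul, map_mul]
    exact h
  have hp0 : p ≠ 0 := by
    rintro h0
    rw [h0, zero_mul] at hcross
    exact mul_ne_zero ha hq0 hcross.symm
  have h1 := hmul p b hp0 hb
  have h2 := hmul a q ha hq0
  rw [hcross] at h1
  show ordR p - ordR q = ordR a - ordR b
  omega

theorem ordFrac_algebraMap (hmul : ∀ a b : R, a ≠ 0 → b ≠ 0 → ordR (a * b) = ordR a + ordR b)
    {a : R} (ha : a ≠ 0) : ordFrac ordR (algebraMap R (FractionRing R) a) = ordR a := by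
  have h := ordFrac_div hmul ha (one_ne_zero (α := R))
  rw [map_one, div_one, ordR_one hmul, sub_zero] at h
  exact h

theorem isOrd_ordFrac (hmul : ∀ a b : R, a ≠ 0 → b ≠ 0 → ordR (a * b) = ordR a + ordR b)
    (hadd : ∀ a b : R, a ≠ 0 → b ≠ 0 → a + b ≠ 0 → min (ordR a) (ordR b) ≤ ordR (a + b)) :
    IsOrd (ordFrac ordR) := by
  have hinj : Function.Injective (algebraMap R (FractionRing R)) :=
    IsFractionRing.injective R (FractionRing R)
  have key : ∀ z : FractionRing R, z ≠ 0 → ∃ a b : R, a ≠ 0 ∧ b ≠ 0 ∧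
      z = algebraMap R (FractionRing R) a / algebraMap R (FractionRing R) b := by
    intro z hz
    obtain ⟨a, b, hb, rfl⟩ := IsFractionRing.div_surjective R z
    refine ⟨a, b, ?_, nonZeroDivisors.ne_zero hb, rfl⟩
    rintro rfl
    simp at hz
  refine ⟨fun z₁ z₂ hz₁ hz₂ => ?_, fun z₁ z₂ hz₁ hz₂ hz => ?_⟩
  · obtain ⟨a₁, b₁, ha₁, hb₁, rfl⟩ := key z₁ hz₁
    obtain ⟨a₂, b₂, ha₂, hb₂, rfl⟩ := key z₂ hz₂
    have hprod : algebraMap R (FractionRing R) a₁ / algebraMap R (FractionRing R) b₁ *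
        (algebraMap R (FractionRing R) a₂ / algebraMap R (FractionRing R) b₂) =
        algebraMap R (FractionRing R) (a₁ * a₂) / algebraMap R (FractionRing R) (b₁ * b₂) := by
      rw [map_mul, map_mul, div_mul_div_comm]
    rw [hprod, ordFrac_div hmul (mul_ne_zero ha₁ ha₂) (mul_ne_zero hb₁ hb₂),
      ordFrac_div hmul ha₁ hb₁, ordFrac_div hmul ha₂ hb₂, hmul _ _ ha₁ ha₂, hmul _ _ hb₁ hb₂]
    ring
  · obtain ⟨a₁, b₁, ha₁, hb₁, rfl⟩ := key z₁ hz₁
    obtain ⟨a₂, b₂, ha₂, hb₂, rfl⟩ := key z₂ hz₂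
    have hb₁' : algebraMap R (FractionRing R) b₁ ≠ 0 := (map_ne_zero_iff _ hinj).mpr hb₁
    have hb₂' : algebraMap R (FractionRing R) b₂ ≠ 0 := (map_ne_zero_iff _ hinj).mpr hb₂
    have hsum : algebraMap R (FractionRing R) a₁ / algebraMap R (FractionRing R) b₁ +
        algebraMap R (FractionRing R) a₂ / algebraMap R (FractionRing R) b₂ =
        algebraMap R (FractionRing R) (a₁ * b₂ + a₂ * b₁) /
          algebraMap R (FractionRing R) (b₁ * b₂) := by
      rw [map_add, map_mul, map_mul, map_mul, div_add_div _ _ hb₁' hb₂']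
      ring
    have hnum0 : a₁ * b₂ + a₂ * b₁ ≠ 0 := by
      intro h0
      rw [hsum, h0, map_zero, zero_div] at hz
      exact hz rfl
    rw [hsum, ordFrac_div hmul hnum0 (mul_ne_zero hb₁ hb₂), ordFrac_div hmul ha₁ hb₁,
      ordFrac_div hmul ha₂ hb₂, hmul _ _ hb₁ hb₂]
    have h := hadd (a₁ * b₂) (a₂ * b₁) (mul_ne_zero ha₁ hb₂) (mul_ne_zero ha₂ hb₁) hnum0
    rw [hmul _ _ ha₁ hb₂, hmul _ _ ha₂ hb₁] at h
    have h3 : min (ordR a₁ - ordR b₁) (ordR a₂ - ordR b₂) + (ordR b₁ + ordR b₂) =
        min (ordR a₁ + ordR b₂) (ordR a₂ + ordR b₁) := by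
      rw [← min_add_add_right]
      congr 1 <;> ring
    omega

end OrdFrac

section Lift

variable {K F : Type*} [Field K] [Field F] [Algebra K F]

/-- `F` is the fraction field of a subalgebra `F₀` through which every element is a quotient. -/
theorem isFractionRing_of_forall (F₀ : Subalgebra K F)
    (hF₀ : ∀ f : F, ∃ a b : F₀, (b : F) ≠ 0 ∧ f * b = a) : IsFractionRing F₀ F := by
  have : FaithfulSMul F₀ F :=
    (faithfulSMul_iff_algebraMap_injective F₀ F).mpr Subtype.val_injective
  refine IsFractionRing.of_field F₀ F fun z => ?_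
  obtain ⟨a, b, hb, h⟩ := hF₀ z
  refine ⟨a, b, ?_⟩
  show z = (a : F) / (b : F)
  rw [eq_div_iff hb]
  exact h

/-- **G3 adapter.** Field-level data from the subalgebra-level data of G3. -/
theorem exists_data (x : F) (hx0 : x ≠ 0)
    (F₀ : Subalgebra K F) (hF₀ : ∀ f : F, ∃ a b : F₀, (b : F) ≠ 0 ∧ f * b = a)
    (num den : F₀) (hden : den ≠ 0) (hxnd : x * den = num)
    {R : Type*} [CommRing R] [IsDomain R] (ordR : R → ℤ)
    (hmul : ∀ a b : R, a ≠ 0 → b ≠ 0 → ordR (a * b) = ordR a + ordR b)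
    (hadd : ∀ a b : R, a ≠ 0 → b ≠ 0 → a + b ≠ 0 → min (ordR a) (ordR b) ≤ ordR (a + b))
    {I : Type*} [Fintype I] (ρ : I → F₀ →+* R) (hρ_inj : ∀ i, Function.Injective (ρ i))
    (hρ_ne : Function.Injective ρ)
    (hK : ∀ i j (c : K), ρ i (algebraMap K F₀ c) = ρ j (algebraMap K F₀ c))
    (hnum : ∀ i j, ρ i num = ρ j num) (hden' : ∀ i j, ρ i den = ρ j den)
    (hconst : ∀ i (c : K), c ≠ 0 → ordR (ρ i (algebraMap K F₀ c)) = 0)
    (s : ℕ) (hs : 0 < s) (hxs : ∀ i, ordR (ρ i num) - ordR (ρ i den) = s)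
    {Γ : Type*} [Group Γ] [MulAction Γ I] (g : Γ)
    (hg : ∀ i (f : F₀), ordR (ρ (g • i) f) = ordR (ρ i f))
    (hdiv : ∀ i (f : F₀), f ≠ 0 →
      (s : ℤ) ∣ ordR (ρ i f) * (Function.minimalPeriod (g • ·) i : ℤ)) :
    ∃ (w : FractionRing R → ℤ) (ι : I → F →+* FractionRing R),
      IsOrd w ∧ Function.Injective ι ∧
      (∀ i j (c : K), ι i (algebraMap K F c) = ι j (algebraMap K F c)) ∧
      (∀ i (c : K), c ≠ 0 → w (ι i (algebraMap K F c)) = 0) ∧
      (∀ i j, ι i x = ι j x) ∧ (∀ i, w (ι i x) = s) ∧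
      (∀ i (f : F), w (ι (g • i) f) = w (ι i f)) ∧
      (∀ i, ∃ κ : ℕ, (∀ f : F, f ≠ 0 → (κ : ℤ) ∣ w (ι i f)) ∧
        s ≤ κ * Nat.card (MulAction.orbit (Subgroup.zpowers g) i)) := by
  classical
  have hfrac : IsFractionRing F₀ F := isFractionRing_of_forall F₀ hF₀
  have hinjR : Function.Injective (algebraMap R (FractionRing R)) :=
    IsFractionRing.injective R (FractionRing R)
  have hginj : ∀ i, Function.Injective ((algebraMap R (FractionRing R)).comp (ρ i)) :=
    fun i => hinjR.comp (hρ_inj i)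
  let ι : I → F →+* FractionRing R := fun i => IsFractionRing.lift (K := F) (hginj i)
  have hι_alg : ∀ i (a : F₀), ι i (a : F) = algebraMap R (FractionRing R) (ρ i a) := fun i a =>
    IsFractionRing.lift_algebraMap (hginj i) a
  have hρ0 : ∀ i (a : F₀), a ≠ 0 → ρ i a ≠ 0 := fun i a ha =>
    (map_ne_zero_iff _ (hρ_inj i)).mpr ha
  -- formula for `ι` on quotients
  have hι_div : ∀ i (f : F) (a b : F₀), (b : F) ≠ 0 → f * b = a →
      ι i f = algebraMap R (FractionRing R) (ρ i a) / algebraMap R (FractionRing R) (ρ i b) := by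
    intro i f a b hb h
    have hb0 : b ≠ 0 := fun h0 => hb (by rw [h0]; rfl)
    have h1 : ι i f * ι i (b : F) = ι i (a : F) := by rw [← map_mul, h]
    rw [hι_alg, hι_alg] at h1
    rw [eq_div_iff ((map_ne_zero_iff _ hinjR).mpr (hρ0 i b hb0))]
    exact h1
  have hw_div : ∀ i (f : F) (a b : F₀), f ≠ 0 → (b : F) ≠ 0 → f * b = a →
      ordFrac ordR (ι i f) = ordR (ρ i a) - ordR (ρ i b) := by
    intro i f a b hf hb h
    have hb0 : b ≠ 0 := fun h0 => hb (by rw [h0]; rfl)
    have ha0 : a ≠ 0 := by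
      intro h0
      rw [h0] at h
      exact mul_ne_zero hf hb h
    rw [hι_div i f a b hb h, ordFrac_div hmul (hρ0 i a ha0) (hρ0 i b hb0)]
  have hden0 : (den : F) ≠ 0 := fun h0 => hden (Subtype.ext h0)
  refine ⟨ordFrac ordR, ι, isOrd_ordFrac hmul hadd, ?_, ?_, ?_, ?_, ?_, ?_, ?_⟩
  · -- injectivity in `i`
    intro i j hij
    apply hρ_ne
    ext a
    apply hinjR
    rw [← hι_alg, ← hι_alg, hij]
  · intro i j c
    have h1 := hι_alg i (algebraMap K F₀ c)
    have h2 := hι_alg j (algebraMap K F₀ c)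
    rw [show ((algebraMap K F₀ c : F₀) : F) = algebraMap K F c from rfl] at h1 h2
    rw [h1, h2, hK i j c]
  · intro i c hc
    have h1 := hι_alg i (algebraMap K F₀ c)
    rw [show ((algebraMap K F₀ c : F₀) : F) = algebraMap K F c from rfl] at h1
    have hc0 : algebraMap K F₀ c ≠ 0 := by
      intro h0
      have : algebraMap K F c = 0 := by
        rw [← show ((algebraMap K F₀ c : F₀) : F) = algebraMap K F c from rfl, h0]; rfl
      exact hc ((map_eq_zero _).mp this)
    rw [h1, ordFrac_algebraMap hmul (hρ0 i _ hc0)]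
    exact hconst i c hc
  · intro i j
    rw [hι_div i x num den hden0 hxnd, hι_div j x num den hden0 hxnd, hnum i j, hden' i j]
  · intro i
    rw [hw_div i x num den hx0 hden0 hxnd]
    exact hxs i
  · intro i f
    rcases eq_or_ne f 0 with rfl | hf
    · simp
    obtain ⟨a, b, hb, h⟩ := hF₀ f
    rw [hw_div (g • i) f a b hf hb h, hw_div i f a b hf hb h, hg i a, hg i b]
  · intro i
    have : Fintype (MulAction.orbit (Subgroup.zpowers g) i) := Fintype.ofFinite _
    have hper : Function.minimalPeriod (g • ·) i =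
        Nat.card (MulAction.orbit (Subgroup.zpowers g) i) := by
      rw [Nat.card_eq_fintype_card]
      exact MulAction.minimalPeriod_eq_card g i
    set m := Nat.card (MulAction.orbit (Subgroup.zpowers g) i) with hm
    have hmpos : 0 < m := by
      rw [hm, Nat.card_eq_fintype_card]
      exact Fintype.card_pos_iff.mpr ⟨⟨i, MulAction.mem_orbit_self i⟩⟩
    set d := Nat.gcd s m with hd
    have hdpos : 0 < d := Nat.gcd_pos_of_pos_left m hs
    obtain ⟨κ, hκ⟩ : d ∣ s := Nat.gcd_dvd_left s m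
    obtain ⟨m', hm'⟩ : d ∣ m := Nat.gcd_dvd_right s m
    have hcop : Nat.Coprime κ m' := by
      have h := Nat.coprime_div_gcd_div_gcd (m := s) (n := m) hdpos
      rw [← hd] at h
      have e1 : s / d = κ := by rw [hκ]; exact Nat.mul_div_cancel_left κ hdpos
      have e2 : m / d = m' := by rw [hm']; exact Nat.mul_div_cancel_left m' hdpos
      rwa [e1, e2] at h
    have hm'pos : 0 < m' := by
      rcases Nat.eq_zero_or_pos m' with h0 | h0
      · rw [h0, mul_zero] at hm'; omega
      · exact h0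
    have hκdvd : ∀ a : F₀, a ≠ 0 → (κ : ℤ) ∣ ordR (ρ i a) := by
      intro a ha
      have h := hdiv i a ha
      rw [hper, hm', hκ] at h
      push_cast at h
      have h2 : (d : ℤ) * κ ∣ (d : ℤ) * (ordR (ρ i a) * m') := by
        convert h using 1
        ring
      have hd0 : (d : ℤ) ≠ 0 := by exact_mod_cast hdpos.ne'
      have h3 : (κ : ℤ) ∣ ordR (ρ i a) * m' := (mul_dvd_mul_iff_left hd0).mp h2
      exact (Nat.isCoprime_iff_coprime.mpr hcop).dvd_of_dvd_mul_right h3
    refine ⟨κ, ?_, ?_⟩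
    · intro f hf
      obtain ⟨a, b, hb, h⟩ := hF₀ f
      have hb0 : b ≠ 0 := fun h0 => hb (by rw [h0]; rfl)
      have ha0 : a ≠ 0 := by
        intro h0
        rw [h0] at h
        exact mul_ne_zero hf hb h
      rw [hw_div i f a b hf hb h]
      exact dvd_sub (hκdvd a ha0) (hκdvd b hb0)
    · calc s = d * κ := hκ
        _ ≤ κ * (d * m') := by nlinarith [hm'pos, hdpos, Nat.zero_le κ]
        _ = κ * m := by rw [hm']

end Lift

end Fermat.Agent.S24.Generic.G3Adapter
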