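import Fermat.Statements.S24
import Fermat.Agent.S24.FF.Residue
import Fermat.Agent.S24.FF.Dedekind
import Fermat.Agent.S24.FibreCount
import Fermat.Agent.S24.Generic.G3Adapter

set_option autoImplicit false

/-!
G3 (fibre count via a full system of embeddings).

Assembled from
* `Fermat.Agent.S24.Generic.G3Adapter.exists_data` (passage from the subalgebra `F₀ → R` to
  embeddings `F → Frac R` with an order function),
* `Fermat.Agent.S24.FibreCount.card_places_eq_card_orbits` (field form of the fibre count),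
* `Fermat.Agent.S24.FF.zeros_finite`, `Fermat.Agent.S24.FF.sum_ord_zeros` (fundamental identity).
-/

open AlgebraicCurve IntermediateField

namespace Fermat.Agent.S24.Generic

variable {K F : Type*} [Field K] [Field F] [Algebra K F]

/-- G3: the number of places of `F` over `x = 0` equals the number of `⟨g⟩`-orbits on a full
system of embeddings of (a generating subalgebra of) `F` into a domain `R` carrying an order
function. -/
theorem card_zeroPlaces_eq_card_orbits [IsAlgClosed K] [CharZero K]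
    [Algebra.EssFiniteType K F] (htr : Algebra.trdeg K F = 1)
    (x : F) (hx : Transcendental K x) (hfin : FiniteDimensional K⟮x⟯ F)
    (F₀ : Subalgebra K F) (hF₀ : ∀ f : F, ∃ a b : F₀, (b : F) ≠ 0 ∧ f * b = a)
    (num den : F₀) (hden : den ≠ 0) (hxnd : x * den = num)
    {R : Type*} [CommRing R] [IsDomain R] (ordR : R → ℤ)
    (hmul : ∀ a b : R, a ≠ 0 → b ≠ 0 → ordR (a * b) = ordR a + ordR b)
    (hadd : ∀ a b : R, a ≠ 0 → b ≠ 0 → a + b ≠ 0 → min (ordR a) (ordR b) ≤ ordR (a + b))
    {I : Type*} [Fintype I] (ρ : I → F₀ →+* R) (hρ_inj : ∀ i, Function.Injective (ρ i))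
    (hρ_ne : Function.Injective ρ)
    (hcard : Fintype.card I = Module.finrank K⟮x⟯ F)
    (hK : ∀ i j (c : K), ρ i (algebraMap K F₀ c) = ρ j (algebraMap K F₀ c))
    (hnum : ∀ i j, ρ i num = ρ j num) (hden' : ∀ i j, ρ i den = ρ j den)
    (hconst : ∀ i (c : K), c ≠ 0 → ordR (ρ i (algebraMap K F₀ c)) = 0)
    (s : ℕ) (hs : 0 < s) (hxs : ∀ i, ordR (ρ i num) - ordR (ρ i den) = s)
    {Γ : Type*} [Group Γ] [MulAction Γ I] (g : Γ)
    (hg : ∀ i (f : F₀), ordR (ρ (g • i) f) = ordR (ρ i f))
    (hdiv : ∀ i (f : F₀), f ≠ 0 →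
      (s : ℤ) ∣ ordR (ρ i f) * (Function.minimalPeriod (g • ·) i : ℤ)) :
    Nat.card {v : Place K F // 0 < v.ord x}
      = Nat.card (MulAction.orbitRel.Quotient (Subgroup.zpowers g) I) := by
  have hx0 : x ≠ 0 := by
    rintro rfl
    exact hx (by simpa using (isAlgebraic_zero : IsAlgebraic K (0 : F)))
  obtain ⟨w, ι, hw, hι, hK', hK0, ht, hts, hg', hbound⟩ :=
    G3Adapter.exists_data x hx0 F₀ hF₀ num den hden hxnd ordR hmul hadd ρ hρ_inj hρ_ne
      hK hnum hden' hconst s hs hxs g hg hdiv
  have hmodfin : Module.Finite K⟮x⟯ F := hfin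
  have h0 : x - algebraMap K F 0 = x := by simp
  have hVfin : {v : Place K F | 0 < v.ord x}.Finite := by
    have := FF.zeros_finite htr hx 0
    rwa [h0] at this
  have hsum : ∑ v ∈ hVfin.toFinset, v.ord x = Module.finrank K⟮x⟯ F := by
    have := FF.sum_ord_zeros htr hx 0
    rw [h0] at this
    rw [← this, finsum_mem_eq_finite_toFinset_sum _ hVfin]
  exact FibreCount.card_places_eq_card_orbits x hx hVfin hsum w hw.1 hw.2 g ι hι hcard hK' hK0 ht
    s hs hts hg' hbound

end Fermat.Agent.S24.Generic
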